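import Fermat.Prelude.Def_EllipticCurve_FrobeniusTrace
import Mathlib

/-!
Existence of places of `ℚ̄` over a prime and of Frobenius elements at every such place.
-/

set_option autoImplicit false

open scoped Pointwise
open Polynomial

namespace FermatAgent.RT

noncomputable section

local notation "Qb" => AlgebraicClosure ℚ
local notation "GQ" => AlgebraicClosure ℚ ≃ₐ[ℚ] AlgebraicClosure ℚ
local notation "ZB" => integralClosure ℤ (AlgebraicClosure ℚ)

theorem isGalois_algClosureRat : IsGalois ℚ Qb :=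
  have : IsAlgClosure ℚ Qb := AlgebraicClosure.instIsAlgClosure ℚ
  IsAlgClosure.isGalois ℚ Qb

attribute [local instance] isGalois_algClosureRat

/-- Every prime has a place of `ℚ̄` above it. -/
theorem exists_liesOverPrime {ℓ : ℕ} (hℓ : ℓ.Prime) :
    ∃ A : ValuationSubring Qb, A.LiesOverPrime ℓ := by
  let R : Subring Qb := (Int.castRingHom Qb).range
  have hmem : ((ℓ : Qb)) ∈ R := ⟨(ℓ : ℤ), by simp⟩
  have hne : Ideal.span ({(⟨(ℓ : Qb), hmem⟩ : R)} : Set R) ≠ ⊤ := by
    rw [Ne, Ideal.span_singleton_eq_top]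
    intro hu
    obtain ⟨⟨_, m, rfl⟩, hm⟩ := isUnit_iff_exists_inv.mp hu
    have h1 : (((ℓ : ℤ) * m : ℤ) : Qb) = ((1 : ℤ) : Qb) := by
      simpa using congrArg Subtype.val hm
    have h2 : (ℓ : ℤ) * m = 1 := Int.cast_injective h1
    have h3 : (ℓ : ℤ) ∣ 1 := ⟨m, h2.symm⟩
    exact hℓ.one_lt.ne' (by exact_mod_cast Int.eq_one_of_dvd_one (by positivity) h3)
  obtain ⟨B, -, hB⟩ := Ideal.image_subset_nonunits_valuationSubring _ hne
  exact ⟨B, hB ⟨_, Ideal.subset_span rfl, rfl⟩⟩

theorem mem_of_isIntegral_int (A : ValuationSubring Qb) {x : Qb} (hx : IsIntegral ℤ x) :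
    x ∈ A := by
  have : IsIntegral A x := hx.tower_top
  obtain ⟨y, rfl⟩ := IsIntegrallyClosed.isIntegral_iff.mp this
  exact y.2

/-- The inclusion of the algebraic integers in a valuation subring of `ℚ̄`. -/
def intClosureToPlace (A : ValuationSubring Qb) : ZB →+* A :=
  (Subalgebra.toSubring ZB).subtype.codRestrict A.toSubring
    fun x => mem_of_isIntegral_int A x.2

/-- The centre of a place of `ℚ̄` on the algebraic integers. -/
def centre (A : ValuationSubring Qb) : Ideal ZB :=
  (IsLocalRing.maximalIdeal A).comap (intClosureToPlace A)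

instance centre_isPrime (A : ValuationSubring Qb) : (centre A).IsPrime :=
  Ideal.IsPrime.comap _

theorem mem_centre_iff {A : ValuationSubring Qb} {x : ZB} :
    x ∈ centre A ↔ (x : Qb) ∈ A.nonunits := by
  rw [ValuationSubring.mem_nonunits_iff_exists_mem_maximalIdeal]
  exact ⟨fun h => ⟨_, h⟩, fun ⟨_, h⟩ => h⟩

theorem natCast_mem_centre {A : ValuationSubring Qb} {ℓ : ℕ} (hA : A.LiesOverPrime ℓ) :
    (ℓ : ZB) ∈ centre A := by
  rw [mem_centre_iff]
  exact_mod_cast hA

theorem intCast_mem_centre_iff {A : ValuationSubring Qb} {ℓ : ℕ} (hℓ : ℓ.Prime)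
    (hA : A.LiesOverPrime ℓ) (m : ℤ) : (m : ZB) ∈ centre A ↔ (ℓ : ℤ) ∣ m := by
  constructor
  · intro hm
    by_contra hnd
    obtain ⟨u, v, huv⟩ :=
      (Prime.coprime_iff_not_dvd (Nat.prime_iff_prime_int.mp hℓ)).mpr hnd
    apply (centre_isPrime A).ne_top
    rw [Ideal.eq_top_iff_one]
    have h1 : ((u * ℓ + v * m : ℤ) : ZB) ∈ centre A := by
      push_cast
      exact add_mem (Ideal.mul_mem_left _ _ (natCast_mem_centre hA)) (Ideal.mul_mem_left _ _ hm)
    rw [huv] at h1
    simpa using h1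
  · rintro ⟨k, rfl⟩
    push_cast
    exact Ideal.mul_mem_right _ _ (natCast_mem_centre hA)

theorem exists_denominator_aux {A : ValuationSubring Qb} {x : Qb} (hx : x ∈ A) :
    ∀ (n : ℕ) (h : Polynomial ZB), h.natDegree ≤ n → aeval x h = 0 →
      (∀ i, h.coeff i ∈ centre A) ∨ ∃ s : ZB, s ∉ centre A ∧ ∃ a : ZB, x * s = a := by
  intro n
  induction n with
  | zero =>
    intro h hdeg h0
    left
    have hC := Polynomial.eq_C_of_natDegree_le_zero hdeg
    rw [hC, aeval_C] at h0
    have : h.coeff 0 = 0 := Subtype.ext (by simpa using h0)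
    intro i
    rw [hC, this]
    simp
  | succ n ih =>
    intro h hdeg h0
    let a := h.coeff (n + 1)
    have hint : IsIntegral ℤ (x * (a : Qb)) := by
      rcases eq_or_ne a 0 with ha | ha
      · simp [ha, isIntegral_zero]
      · have hd : h.natDegree = n + 1 := le_antisymm hdeg (le_natDegree_of_ne_zero ha)
        have hb := isIntegral_leadingCoeff_smul h x h0
        rw [leadingCoeff, hd] at hb
        have : Algebra.IsIntegral ℤ ZB := integralClosure.AlgebraIsIntegral
        have := isIntegral_trans (R := ℤ) _ hb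
        rwa [Algebra.smul_def, mul_comm] at this
    by_cases ha : a ∈ centre A
    · let b : ZB := ⟨x * (a : Qb), hint⟩
      let h' : Polynomial ZB := h.erase (n + 1) + monomial n b
      have hdeg' : h'.natDegree ≤ n := by
        rw [natDegree_le_iff_coeff_eq_zero]
        intro i hi
        rcases eq_or_ne i (n + 1) with rfl | hi'
        · simp [h', coeff_monomial]
        · have : h.coeff i = 0 := coeff_eq_zero_of_natDegree_lt (by omega)
          simp [h', coeff_monomial, this, hi']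
          exact fun e => absurd e (by omega)
      have h0' : aeval x h' = 0 := by
        have := congrArg (aeval x) (monomial_add_erase h (n + 1))
        rw [map_add, h0, aeval_monomial, add_eq_zero_iff_eq_neg'] at this
        rw [map_add, this, aeval_monomial]
        show -((a : Qb) * x ^ (n + 1)) + x * (a : Qb) * x ^ n = 0
        ring
      rcases ih h' hdeg' h0' with hall | hs
      · left
        have hb : b ∈ centre A := by
          rw [mem_centre_iff, ValuationSubring.mem_nonunits_iff_exists_mem_maximalIdeal]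
          have ha' : intClosureToPlace A a ∈ IsLocalRing.maximalIdeal A := ha
          exact ⟨_, Ideal.mul_mem_left _ (⟨x, hx⟩ : A) ha'⟩
        intro i
        rcases eq_or_ne i (n + 1) with rfl | hi'
        · exact ha
        · have := hall i
          rw [coeff_add, coeff_erase, if_neg hi', coeff_monomial] at this
          split_ifs at this with hni
          · exact (Submodule.add_mem_iff_left _ hb).mp this
          · simpa using this
      · exact Or.inr hs
    · exact Or.inr ⟨a, ha, ⟨_, hint⟩, rfl⟩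

/-- A place of `ℚ̄` over a prime is the localisation of the algebraic integers at its centre. -/
theorem exists_mul_eq_of_mem {A : ValuationSubring Qb} {ℓ : ℕ} (hℓ : ℓ.Prime)
    (hA : A.LiesOverPrime ℓ) {x : Qb} (hx : x ∈ A) :
    ∃ a s : ZB, s ∉ centre A ∧ x * s = a := by
  obtain ⟨f, hf0, hfx⟩ : IsAlgebraic ℤ x :=
    (IsFractionRing.isAlgebraic_iff ℤ ℚ Qb).mpr
      ((isGalois_algClosureRat.to_normal.isIntegral x).isAlgebraic)
  have hpx : aeval x f.primPart = 0 := aeval_primPart_eq_zero hf0 hfx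
  let h : Polynomial ZB := f.primPart.map (algebraMap ℤ ZB)
  have h0 : aeval x h = 0 := by rw [aeval_map_algebraMap, hpx]
  rcases exists_denominator_aux hx h.natDegree h le_rfl h0 with hall | ⟨s, hs, a, ha⟩
  · exfalso
    refine (Nat.prime_iff_prime_int.mp hℓ).not_isUnit (isPrimitive_primPart f _ ?_)
    rw [C_dvd_iff_dvd_coeff]
    intro i
    have := hall i
    rw [coeff_map, eq_intCast] at this
    exact (intCast_mem_centre_iff hℓ hA _).mp this
  · exact ⟨a, s, hs, ha⟩

theorem apply_mem_of_mem {A : ValuationSubring Qb} {ℓ : ℕ} (hℓ : ℓ.Prime)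
    (hA : A.LiesOverPrime ℓ) {σ : GQ} (hσ : σ • centre A = centre A) {x : Qb} (hx : x ∈ A) :
    σ x ∈ A := by
  obtain ⟨a, s, hs, h⟩ := exists_mul_eq_of_mem hℓ hA hx
  have hs' : σ • s ∉ centre A := by
    rw [← hσ, Ideal.smul_mem_pointwise_smul_iff]
    exact hs
  have hu : IsUnit (intClosureToPlace A (σ • s)) := by
    by_contra hn
    exact hs' hn
  obtain ⟨v, hv⟩ := hu.exists_right_inv
  have hv' : σ (s : Qb) * (v : Qb) = 1 := congrArg Subtype.val hv
  have h' : σ x * σ (s : Qb) = σ (a : Qb) := by rw [← map_mul, h]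
  have : σ x = σ (a : Qb) * (v : Qb) := by rw [← h', mul_assoc, hv', mul_one]
  rw [this]
  exact mul_mem (mem_of_isIntegral_int A (σ • a).2) v.2

theorem mem_decompositionSubgroup_of_smul_centre {A : ValuationSubring Qb} {ℓ : ℕ}
    (hℓ : ℓ.Prime) (hA : A.LiesOverPrime ℓ) {σ : GQ} (hσ : σ • centre A = centre A) :
    σ ∈ A.decompositionSubgroup ℚ := by
  rw [ValuationSubring.decompositionSubgroup, MulAction.mem_stabilizer_iff]
  have hσ' : σ⁻¹ • centre A = centre A := inv_smul_eq_iff.mpr hσ.symm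
  ext x
  rw [ValuationSubring.mem_pointwise_smul_iff_inv_smul_mem]
  constructor
  · intro h
    have := apply_mem_of_mem hℓ hA hσ h
    rwa [← AlgEquiv.smul_def, smul_inv_smul] at this
  · intro h
    exact apply_mem_of_mem hℓ hA hσ' h

instance isInvariant_intClosure : Algebra.IsInvariant ℤ ZB GQ where
  isInvariant b hb := by
    obtain ⟨q, hq⟩ := (InfiniteGalois.mem_range_algebraMap_iff_fixed (k := ℚ) (b : Qb)).mpr
      fun σ => congrArg Subtype.val (hb σ)
    have hqi : IsIntegral ℤ q := by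
      rw [← isIntegral_algebraMap_iff (B := Qb) (algebraMap ℚ Qb).injective, hq]
      exact b.2
    obtain ⟨m, rfl⟩ := IsIntegrallyClosed.isIntegral_iff.mp hqi
    exact ⟨m, Subtype.ext (by simpa using hq)⟩

/-- There is a Frobenius element at every place of `ℚ̄` over a prime. -/
theorem exists_isFrobeniusAt {A : ValuationSubring Qb} {ℓ : ℕ} (hℓ : ℓ.Prime)
    (hA : A.LiesOverPrime ℓ) : ∃ σ : GQ, A.IsFrobeniusAt σ ℓ := by
  let : TopologicalSpace ZB := ⊥
  have : DiscreteTopology ZB := ⟨rfl⟩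
  have : ContinuousSMul GQ ZB := by
    rw [continuousSMul_iff_stabilizer_isOpen]
    intro b
    have hfin : FiniteDimensional ℚ (IntermediateField.adjoin ℚ {(b : Qb)}) :=
      IntermediateField.adjoin.finiteDimensional (isGalois_algClosureRat.to_normal.isIntegral _)
    refine Subgroup.isOpen_mono ?_
      (IntermediateField.fixingSubgroup_isOpen (IntermediateField.adjoin ℚ {(b : Qb)}))
    intro σ hσ
    exact Subtype.ext (hσ ⟨b, IntermediateField.mem_adjoin_simple_self ℚ (b : Qb)⟩)
  let Q := centre A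
  let F := ZB ⧸ Q
  have : Fact ℓ.Prime := ⟨hℓ⟩
  have : CharP F ℓ := ⟨fun m => by
    rw [← map_natCast (Ideal.Quotient.mk Q), Ideal.Quotient.eq_zero_iff_mem]
    simpa [Int.natCast_dvd_natCast] using intCast_mem_centre_iff hℓ hA (m : ℤ)⟩
  have hbij : Function.Bijective (frobenius F ℓ) := by
    refine ⟨frobenius_inj F ℓ, fun y => ?_⟩
    obtain ⟨b, rfl⟩ := Ideal.Quotient.mk_surjective y
    obtain ⟨z, hz⟩ := IsAlgClosed.exists_pow_nat_eq (b : Qb) hℓ.pos
    have hzi : IsIntegral ℤ z := IsIntegral.of_pow hℓ.pos (by rw [hz]; exact b.2)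
    refine ⟨Ideal.Quotient.mk Q ⟨z, hzi⟩, ?_⟩
    rw [frobenius_def, ← map_pow]
    exact congrArg _ (Subtype.ext hz)
  let P := Q.under ℤ
  let e : F ≃ₐ[ℤ ⧸ P] F :=
    AlgEquiv.ofRingEquiv (f := RingEquiv.ofBijective (frobenius F ℓ) hbij) (by
      intro m
      obtain ⟨m, rfl⟩ := Ideal.Quotient.mk_surjective m
      rw [← RingHom.comp_apply, eq_intCast]
      exact map_intCast _ m)
  obtain ⟨⟨σ, hσ⟩, hσe⟩ :=
    Ideal.Quotient.stabilizerHom_surjective_of_profinite (G := GQ) P Q e
  have hfrob : ∀ b : ZB, Ideal.Quotient.mk Q (σ • b) = Ideal.Quotient.mk Q b ^ ℓ := fun b =>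
    DFunLike.congr_fun hσe (Ideal.Quotient.mk Q b)
  have hσQ : σ • centre A = centre A := hσ
  have hd := mem_decompositionSubgroup_of_smul_centre hℓ hA hσQ
  refine ⟨σ, hd, fun x => ?_⟩
  obtain ⟨⟨x, hx⟩, rfl⟩ := IsLocalRing.residue_surjective x
  rw [← IsLocalRing.ResidueField.residue_smul]
  obtain ⟨a, s, hs, h⟩ := exists_mul_eq_of_mem hℓ hA hx
  let φ : ZB →+* IsLocalRing.ResidueField A :=
    (IsLocalRing.residue A).comp (intClosureToPlace A)
  have hφ : ∀ b : ZB, φ (σ • b) = φ b ^ ℓ := by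
    intro b
    have hk : σ • b - b ^ ℓ ∈ Q := by
      rw [← Ideal.Quotient.eq, map_pow]
      exact hfrob b
    have : φ (σ • b - b ^ ℓ) = 0 := (IsLocalRing.residue_eq_zero_iff _).mpr hk
    rwa [map_sub, map_pow, sub_eq_zero] at this
  have hs0 : φ s ^ ℓ ≠ 0 := pow_ne_zero _ fun h0 => hs ((IsLocalRing.residue_eq_zero_iff _).mp h0)
  have e1 : IsLocalRing.residue A ⟨x, hx⟩ * φ s = φ a := by
    rw [RingHom.comp_apply, RingHom.comp_apply, ← map_mul]
    exact congrArg _ (Subtype.ext h)
  have e2 : IsLocalRing.residue A ((⟨σ, hd⟩ : A.decompositionSubgroup ℚ) • ⟨x, hx⟩) * φ (σ • s) =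
      φ (σ • a) := by
    rw [RingHom.comp_apply, RingHom.comp_apply, ← map_mul]
    refine congrArg _ (Subtype.ext ?_)
    show σ x * σ (s : Qb) = σ (a : Qb)
    rw [← map_mul, h]
  apply mul_right_cancel₀ hs0
  rw [hφ, hφ, ← e1, mul_pow] at e2
  exact e2

theorem exists_place_isFrobeniusAt {ℓ : ℕ} (hℓ : ℓ.Prime) :
    ∃ (A : ValuationSubring Qb) (σ : GQ), A.LiesOverPrime ℓ ∧ A.IsFrobeniusAt σ ℓ := by
  obtain ⟨A, hA⟩ := exists_liesOverPrime hℓ
  obtain ⟨σ, hσ⟩ := exists_isFrobeniusAt hℓ hA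
  exact ⟨A, σ, hA, hσ⟩

end

end FermatAgent.RT
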