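import Mathlib

/-!
A finite module over a Noetherian local ring whose maximal ideal is generated by `n` elements is
free as soon as it has a regular sequence of length `n`.
-/

set_option autoImplicit false

open IsLocalRing RingTheory.Sequence CategoryTheory Abelian Limits

namespace FermatAgent.RT

/-- If `M` has a regular sequence of length `n + 1`, then so does `M/yM` of length `n`,
for any `M`-regular `y` in the maximal ideal. -/
theorem exists_isRegular_quotSMulTop {R : Type} [CommRing R] [IsLocalRing R] [IsNoetherianRing R]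
    {M : Type} [AddCommGroup M] [Module R M] [Module.Finite R M] {n : ℕ}
    {rs : List R} (hlen : rs.length = n + 1) (hmem : ∀ r ∈ rs, r ∈ maximalIdeal R)
    (hreg : IsRegular M rs) {y : R} (hy : y ∈ maximalIdeal R) (hyreg : IsSMulRegular M y) :
    ∃ rs' : List R, rs'.length = n ∧ (∀ r ∈ rs', r ∈ maximalIdeal R) ∧
      IsRegular (QuotSMulTop y M) rs' := by
  have : Nontrivial M := hreg.nontrivial
  have hlt : ∀ (L : Type) [AddCommGroup L] [Module R L] [Module.Finite R L] [Nontrivial L],
      maximalIdeal R • (⊤ : Submodule R L) < ⊤ := fun L _ _ _ _ =>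
    (Submodule.top_ne_ideal_smul_of_le_jacobson_annihilator
      (maximalIdeal_le_jacobson _)).symm.lt_top
  have eM : (∀ i < n + 1, Subsingleton (Ext (ModuleCat.of R (Shrink.{0} (R ⧸ maximalIdeal R)))
      (ModuleCat.of R M) i)) ↔ ∃ rs : List R, rs.length = n + 1 ∧
      (∀ r ∈ rs, r ∈ maximalIdeal R) ∧ IsRegular M rs :=
    (ModuleCat.exists_isRegular_tfae (maximalIdeal R) (n + 1) (ModuleCat.of R M) (hlt M)).out 1 3
  have hM := eM.mpr ⟨rs, hlen, hmem, hreg⟩
  have : Nontrivial (QuotSMulTop y M) := nontrivial_quotSMulTop_of_mem_maximalIdeal M hy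
  have eQ : (∀ i < n, Subsingleton (Ext (ModuleCat.of R (Shrink.{0} (R ⧸ maximalIdeal R)))
      (ModuleCat.of R (QuotSMulTop y M)) i)) ↔ ∃ rs : List R, rs.length = n ∧
      (∀ r ∈ rs, r ∈ maximalIdeal R) ∧ IsRegular (QuotSMulTop y M) rs :=
    (ModuleCat.exists_isRegular_tfae (maximalIdeal R) n
      (ModuleCat.of R (QuotSMulTop y M)) (hlt _)).out 1 3
  refine eQ.mp ?_
  intro i hi
  have z1 := AddCommGrpCat.isZero_of_iff_subsingleton.mpr (hM i (by omega))
  have z2 := AddCommGrpCat.isZero_of_iff_subsingleton.mpr (hM (i + 1) (by omega))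
  exact AddCommGrpCat.subsingleton_of_isZero <| ShortComplex.Exact.isZero_of_both_zeros
    ((Ext.covariant_sequence_exact₃' _
      (IsSMulRegular.smulShortComplex_shortExact (M := ModuleCat.of R M) hyreg)) i (i + 1) rfl)
    (z1.eq_zero_of_src _) (z2.eq_zero_of_tgt _)

/-- A regular element outside the square of the maximal ideal. -/
theorem exists_isSMulRegular_notMem_sq {R : Type} [CommRing R] [IsLocalRing R]
    [IsNoetherianRing R] {M : Type} [AddCommGroup M] [Module R M] [Module.Finite R M]
    [Nontrivial M] {a : R} (ha : a ∈ maximalIdeal R) (hareg : IsSMulRegular M a) :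
    ∃ y ∈ maximalIdeal R, y ∉ maximalIdeal R ^ 2 ∧ IsSMulRegular M y := by
  classical
  by_contra hcon
  push Not at hcon
  have hfin : (associatedPrimes R M).Finite := associatedPrimes.finite R M
  let s : Finset (Ideal R) := insert (maximalIdeal R ^ 2) hfin.toFinset
  have hsub : (maximalIdeal R : Set R) ⊆ ⋃ i ∈ (↑s : Set (Ideal R)), (i : Set R) := by
    intro z hz
    simp only [Set.mem_iUnion, exists_prop]
    by_cases h2 : z ∈ maximalIdeal R ^ 2
    · exact ⟨_, by simp [s], h2⟩
    · have : z ∈ ⋃ p ∈ associatedPrimes R M, (p : Set R) := by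
        rw [biUnion_associatedPrimes_eq_compl_regular]
        exact hcon z hz h2
      simp only [Set.mem_iUnion, exists_prop] at this
      obtain ⟨p, hp, hzp⟩ := this
      exact ⟨p, by simp [s, hp], hzp⟩
  obtain ⟨p, hp, hle⟩ := (Ideal.subset_union_prime (maximalIdeal R ^ 2) (maximalIdeal R ^ 2)
    (f := fun i : Ideal R => i) (s := s) (by
      intro p hp h1 _
      simp only [s, Finset.mem_insert, Set.Finite.mem_toFinset] at hp
      exact (hp.resolve_left h1).isPrime)).mp hsub
  simp only [s, Finset.mem_insert, Set.Finite.mem_toFinset] at hp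
  rcases hp with rfl | hp
  · have hbot : maximalIdeal R = ⊥ := by
      apply Submodule.eq_bot_of_le_smul_of_le_jacobson_bot (maximalIdeal R) _
        (IsNoetherian.noetherian _) _ (maximalIdeal_le_jacobson _)
      rwa [smul_eq_mul, ← pow_two]
    rw [hbot, Ideal.mem_bot] at ha
    subst ha
    obtain ⟨x, hx⟩ := exists_ne (0 : M)
    exact hx (hareg (by simp))
  · have : a ∈ ⋃ q ∈ associatedPrimes R M, (q : Set R) := Set.mem_biUnion hp (hle ha)
    rw [biUnion_associatedPrimes_eq_compl_regular] at this
    exact this hareg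

theorem free_of_isRegular_of_span_eq (n : ℕ) :
    ∀ {R : Type} [CommRing R] [IsLocalRing R] [IsNoetherianRing R]
      {M : Type} [AddCommGroup M] [Module R M] [Module.Finite R M]
      (g : Fin n → R), Ideal.span (Set.range g) = maximalIdeal R →
      ∀ rs : List R, rs.length = n → (∀ r ∈ rs, r ∈ maximalIdeal R) → IsRegular M rs →
      Module.Free R M := by
  induction n with
  | zero =>
    intro R _ _ _ M _ _ _ g hg rs _ _ _
    have : maximalIdeal R = ⊥ := by rw [← hg, Set.range_eq_empty, Ideal.span_empty]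
    let := (IsLocalRing.isField_iff_maximalIdeal_eq.mpr this).toField
    exact Module.Free.of_divisionRing R M
  | succ n ih =>
    intro R _ _ _ M _ _ _ g hg rs hlen hmem hreg
    have := Module.finitePresentation_of_finite R M
    obtain ⟨a, rs₀, rfl⟩ := List.exists_cons_of_length_eq_add_one hlen
    have : Nontrivial M := hreg.nontrivial
    obtain ⟨y, hym, hy2, hyreg⟩ := exists_isSMulRegular_notMem_sq (hmem a (by simp))
      ((isRegular_cons_iff M a rs₀).mp hreg).1
    obtain ⟨rs', hlen', hmem', hreg'⟩ :=
      exists_isRegular_quotSMulTop hlen hmem hreg hym hyreg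
    rw [← Module.free_quotSMulTop_iff_free R M (maximalIdeal_le_jacobson _ hym) hyreg]
    have hym' : Ideal.span {y} ≤ maximalIdeal R := (Ideal.span_singleton_le_iff_mem _).mpr hym
    have hne : Ideal.span {y} ≠ ⊤ := fun h => (maximalIdeal.isMaximal R).ne_top
      (top_le_iff.mp (h ▸ hym'))
    have : Nontrivial (R ⧸ Ideal.span {y}) := Ideal.Quotient.nontrivial_iff.mpr hne
    have : IsLocalRing (R ⧸ Ideal.span {y}) :=
      .of_surjective' (Ideal.Quotient.mk _) Ideal.Quotient.mk_surjective
    have hmax : maximalIdeal (R ⧸ Ideal.span {y}) =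
        (maximalIdeal R).map (Ideal.Quotient.mk (Ideal.span {y})) :=
      (map_maximalIdeal_of_surjective _ Ideal.Quotient.mk_surjective).symm
    -- one generator becomes redundant modulo `y`
    obtain ⟨c, hc⟩ : ∃ c : Fin (n + 1) → R, ∑ i, c i • g i = y := by
      rw [← Submodule.mem_span_range_iff_exists_fun]
      show y ∈ Ideal.span (Set.range g)
      rwa [hg]
    obtain ⟨j, hj⟩ : ∃ j, IsUnit (c j) := by
      by_contra! hall
      apply hy2
      rw [← hc, pow_two]
      refine Ideal.sum_mem _ fun i _ => ?_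
      rw [smul_eq_mul]
      refine Ideal.mul_mem_mul (hall i) ?_
      rw [← hg]
      exact Ideal.subset_span ⟨i, rfl⟩
    let q := Ideal.Quotient.mk (Ideal.span {y})
    let g' : Fin n → R ⧸ Ideal.span {y} := fun i => q (g (j.succAbove i))
    have hg' : Ideal.span (Set.range g') = maximalIdeal (R ⧸ Ideal.span {y}) := by
      rw [hmax, ← hg, Ideal.map_span, ← Set.range_comp]
      refine le_antisymm (Ideal.span_mono ?_) (Ideal.span_le.mpr ?_)
      · rintro _ ⟨i, rfl⟩
        exact ⟨j.succAbove i, rfl⟩
      · rintro _ ⟨i, rfl⟩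
        rcases j.eq_self_or_eq_succAbove i with rfl | ⟨k, rfl⟩
        · rw [SetLike.mem_coe, Function.comp_apply,
            ← Ideal.unit_mul_mem_iff_mem _ (hj.map q)]
          have h0 : q (∑ k, c k • g k) = 0 := by
            rw [Ideal.Quotient.eq_zero_iff_mem]
            exact Ideal.mem_span_singleton.mpr (hc ▸ dvd_refl _)
          rw [Fin.sum_univ_succAbove _ i, map_add, map_sum] at h0
          simp only [smul_eq_mul, map_mul] at h0
          rw [eq_neg_of_add_eq_zero_left h0]
          exact neg_mem (Ideal.sum_mem _ fun k _ =>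
            Ideal.mul_mem_left _ _ (Ideal.subset_span ⟨k, rfl⟩))
        · exact Ideal.subset_span ⟨k, rfl⟩
    have : Module.Finite (R ⧸ Ideal.span {y}) (QuotSMulTop y M) :=
      Module.Finite.of_restrictScalars_finite R _ _
    have : Nontrivial (QuotSMulTop y M) := nontrivial_quotSMulTop_of_mem_maximalIdeal M hym
    have hmem'' : ∀ r ∈ rs'.map q, r ∈ maximalIdeal (R ⧸ Ideal.span {y}) := by
      intro r hr
      obtain ⟨r, hr', rfl⟩ := List.mem_map.mp hr
      rw [hmax]
      exact Ideal.mem_map_of_mem _ (hmem' r hr')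
    refine ih g' hg' (rs'.map q) (by simp [hlen']) hmem'' ?_
    exact IsRegular.of_isWeaklyRegular_of_mem_maximalIdeal _ hmem''
      ((isWeaklyRegular_map_algebraMap_iff (R ⧸ Ideal.span {y}) _ rs').mpr
        hreg'.toIsWeaklyRegular)

end FermatAgent.RT
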