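import Mathlib

/-!
Variables and a uniformiser in a multivariate power series ring: generation of the maximal ideal
and regularity.
-/

set_option autoImplicit false

open RingTheory.Sequence Finsupp

namespace FermatAgent.RT

variable {O : Type} [CommRing O] {r : ℕ}

local notation "Λ" => MvPowerSeries (Fin r) O

theorem coeff_eq_zero_of_mem_span_X {S : Set (Fin r)} {f : Λ}
    (hf : f ∈ Ideal.span ((MvPowerSeries.X : Fin r → Λ) '' S))
    (e : Fin r →₀ ℕ) (he : ∀ i ∈ S, e i = 0) : MvPowerSeries.coeff e f = 0 := by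
  induction hf using Submodule.span_induction generalizing e with
  | mem x hx =>
    obtain ⟨i, hi, rfl⟩ := hx
    rw [MvPowerSeries.coeff_X, if_neg]
    intro h
    simpa [h] using he i hi
  | zero => simp
  | add x y _ _ hx hy => rw [map_add, hx e he, hy e he, add_zero]
  | smul a x _ hx =>
    classical
    rw [smul_eq_mul, MvPowerSeries.coeff_mul]
    refine Finset.sum_eq_zero fun p hp => ?_
    rw [Finset.HasAntidiagonal.mem_antidiagonal] at hp
    rw [hx p.2 fun i hi => ?_, mul_zero]
    have := he i hi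
    rw [← hp, Finsupp.add_apply] at this
    omega

theorem mem_span_X_of_coeff_eq_zero {S : Set (Fin r)} {f : Λ}
    (hf : ∀ e : Fin r →₀ ℕ, (∀ i ∈ S, e i = 0) → MvPowerSeries.coeff e f = 0) :
    f ∈ Ideal.span ((MvPowerSeries.X : Fin r → Λ) '' S) := by
  classical
  let g : Fin r → Λ := fun i e =>
    if i ∈ S ∧ ∀ j ∈ S, j < i → e j = 0 then MvPowerSeries.coeff (e + Finsupp.single i 1) f else 0
  have hfg : f = ∑ i ∈ S.toFinset, MvPowerSeries.X i * g i := by
    ext e
    have hterm : ∀ i, MvPowerSeries.coeff e (MvPowerSeries.X i * g i) =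
        if e i ≠ 0 ∧ i ∈ S ∧ (∀ j ∈ S, j < i → e j = 0) then MvPowerSeries.coeff e f else 0 := by
      intro i
      rw [MvPowerSeries.X_def, MvPowerSeries.coeff_monomial_mul, one_mul]
      by_cases hle : Finsupp.single i 1 ≤ e
      · have hi : e i ≠ 0 := by have := hle i; simp at this; omega
        rw [if_pos hle, MvPowerSeries.coeff_apply (g i)]
        have hcond : (∀ j ∈ S, j < i → (e - Finsupp.single i 1 : Fin r →₀ ℕ) j = 0) ↔
            ∀ j ∈ S, j < i → e j = 0 := by
          refine forall_congr' fun j => imp_congr_right fun _ => imp_congr_right fun hji => ?_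
          simp [Finsupp.tsub_apply, Finsupp.single_eq_of_ne (ne_of_lt hji)]
        simp only [g, hcond, tsub_add_cancel_of_le hle, hi, ne_eq, not_false_eq_true, true_and]
      · have hi : e i = 0 := by
          by_contra h
          exact hle (Finsupp.single_le_iff.mpr (Nat.one_le_iff_ne_zero.mpr h))
        rw [if_neg hle, if_neg (fun h => h.1 hi)]
    rw [map_sum, Finset.sum_congr rfl fun i _ => hterm i]
    by_cases hall : ∀ i ∈ S, e i = 0
    · rw [hf e hall, Finset.sum_eq_zero]
      intro i _
      simp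
    · push Not at hall
      let T := S.toFinset.filter fun i => e i ≠ 0
      have hT : T.Nonempty := by
        obtain ⟨i, hi, hie⟩ := hall
        exact ⟨i, by simp [T, hi, hie]⟩
      have hm := T.min'_mem hT
      simp only [T, Finset.mem_filter, Set.mem_toFinset] at hm
      rw [Finset.sum_eq_single (T.min' hT), if_pos]
      · refine ⟨hm.2, hm.1, fun j hjS hj => ?_⟩
        by_contra hne
        exact absurd hj (not_lt.mpr (T.min'_le j (by simp [T, hjS, hne])))
      · intro i hi hne
        rw [if_neg]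
        rintro ⟨hie, hiS, hmin⟩
        rcases lt_or_gt_of_ne hne with h | h
        · exact absurd h (not_lt.mpr (T.min'_le i (by simp [T, hiS, hie])))
        · exact hm.2 (hmin _ hm.1 h)
      · intro h
        exact absurd (Set.mem_toFinset.mpr hm.1) h
  rw [hfg]
  exact Ideal.sum_mem _ fun i hi => Ideal.mul_mem_right _ _
    (Ideal.subset_span ⟨i, Set.mem_toFinset.mp hi, rfl⟩)

theorem mem_span_X_iff {S : Set (Fin r)} {f : Λ} :
    f ∈ Ideal.span ((MvPowerSeries.X : Fin r → Λ) '' S) ↔
      ∀ e : Fin r →₀ ℕ, (∀ i ∈ S, e i = 0) → MvPowerSeries.coeff e f = 0 :=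
  ⟨coeff_eq_zero_of_mem_span_X, mem_span_X_of_coeff_eq_zero⟩

theorem mem_span_range_X_iff {f : Λ} :
    f ∈ Ideal.span (Set.range (MvPowerSeries.X : Fin r → Λ)) ↔
      MvPowerSeries.constantCoeff f = 0 := by
  rw [← Set.image_univ, mem_span_X_iff, ← MvPowerSeries.coeff_zero_eq_constantCoeff]
  refine ⟨fun h => h 0 (by simp), fun h e he => ?_⟩
  rwa [show e = 0 from Finsupp.ext fun i => he i trivial]

theorem isWeaklyRegular_X_uniformiser [IsDomain O] {ϖ : O} (hϖ : ϖ ≠ 0) :
    IsWeaklyRegular Λ (List.ofFn (MvPowerSeries.X : Fin r → Λ) ++ [MvPowerSeries.C ϖ]) := by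
  rw [isWeaklyRegular_iff_Fin]
  intro i
  have hi : (i : ℕ) < r + 1 := by simpa using i.2
  rw [isSMulRegular_quotient_iff_mem_of_smul_mem]
  intro f hf
  simp only [smul_eq_mul, Ideal.mul_top] at hf ⊢
  rcases Nat.lt_succ_iff_lt_or_eq.mp hi with hlt | heq
  · have htake : (List.ofFn (MvPowerSeries.X : Fin r → Λ) ++ [MvPowerSeries.C ϖ]).take i =
        (List.ofFn (MvPowerSeries.X : Fin r → Λ)).take i := by
      rw [List.take_append_of_le_length (by simp; omega)]
    have hget : (List.ofFn (MvPowerSeries.X : Fin r → Λ) ++ [MvPowerSeries.C ϖ])[i] =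
        MvPowerSeries.X ⟨i, hlt⟩ := by
      simp [List.getElem_append_left, hlt]
    have hset : {x | x ∈ (List.ofFn (MvPowerSeries.X : Fin r → Λ)).take i} =
        (MvPowerSeries.X : Fin r → Λ) '' {j : Fin r | (j : ℕ) < i} := by
      ext x
      simp only [Set.mem_ofPred_eq, List.mem_take_iff_getElem, List.getElem_ofFn, Set.mem_image,
        List.length_ofFn]
      constructor
      · rintro ⟨j, hj, rfl⟩
        exact ⟨⟨j, by omega⟩, by simp; omega, rfl⟩
      · rintro ⟨j, hj, rfl⟩
        exact ⟨j, by omega, rfl⟩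
    rw [htake, hget, Ideal.ofList, hset, mem_span_X_iff] at hf
    rw [htake, Ideal.ofList, hset, mem_span_X_iff]
    intro e he
    have := hf (Finsupp.single ⟨i, hlt⟩ 1 + e) fun j hj => by
      have hne : j ≠ ⟨i, hlt⟩ := fun h => by simp [h] at hj
      simp [he j hj, Finsupp.single_eq_of_ne hne]
    rwa [MvPowerSeries.X_def, MvPowerSeries.coeff_add_monomial_mul, one_mul] at this
  · have htake : (List.ofFn (MvPowerSeries.X : Fin r → Λ) ++ [MvPowerSeries.C ϖ]).take i =
        List.ofFn (MvPowerSeries.X : Fin r → Λ) := by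
      rw [List.take_append_of_le_length (by simp; omega), List.take_of_length_le (by simp; omega)]
    have hget : (List.ofFn (MvPowerSeries.X : Fin r → Λ) ++ [MvPowerSeries.C ϖ])[i] =
        MvPowerSeries.C ϖ := by
      simp [heq]
    have hset : {x | x ∈ List.ofFn (MvPowerSeries.X : Fin r → Λ)} =
        Set.range (MvPowerSeries.X : Fin r → Λ) := by
      ext x
      simp [List.mem_ofFn]
    rw [htake, hget, Ideal.ofList, hset, mem_span_range_X_iff, map_mul,
      MvPowerSeries.constantCoeff_C] at hf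
    rw [htake, Ideal.ofList, hset, mem_span_range_X_iff]
    exact (mul_eq_zero.mp hf).resolve_left hϖ

theorem maximalIdeal_eq_span [IsLocalRing O] {ϖ : O}
    (hϖ : IsLocalRing.maximalIdeal O = Ideal.span {ϖ}) :
    Ideal.span (Set.range (Fin.cons (MvPowerSeries.C ϖ) MvPowerSeries.X : Fin (r + 1) → Λ)) =
      IsLocalRing.maximalIdeal Λ := by
  rw [Fin.range_cons, Ideal.span_insert]
  apply le_antisymm
  · rw [sup_le_iff, Ideal.span_singleton_le_iff_mem, Ideal.span_le]
    refine ⟨?_, ?_⟩
    · rw [IsLocalRing.mem_maximalIdeal, mem_nonunits_iff, MvPowerSeries.isUnit_iff_constantCoeff,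
        MvPowerSeries.constantCoeff_C, ← mem_nonunits_iff, ← IsLocalRing.mem_maximalIdeal, hϖ]
      exact Ideal.mem_span_singleton_self ϖ
    · rintro _ ⟨i, rfl⟩
      rw [SetLike.mem_coe, IsLocalRing.mem_maximalIdeal, mem_nonunits_iff,
        MvPowerSeries.isUnit_iff_constantCoeff, MvPowerSeries.constantCoeff_X]
      exact not_isUnit_zero
  · intro f hf
    rw [IsLocalRing.mem_maximalIdeal, mem_nonunits_iff, MvPowerSeries.isUnit_iff_constantCoeff,
      ← mem_nonunits_iff, ← IsLocalRing.mem_maximalIdeal, hϖ, Ideal.mem_span_singleton] at hf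
    obtain ⟨c, hc⟩ := hf
    have : f = MvPowerSeries.C ϖ * MvPowerSeries.C c +
        (f - MvPowerSeries.C (MvPowerSeries.constantCoeff f)) := by
      rw [← map_mul, ← hc]; ring
    rw [this]
    refine Submodule.add_mem_sup (Ideal.mul_mem_right _ _ (Ideal.mem_span_singleton_self _)) ?_
    rw [mem_span_range_X_iff, map_sub, MvPowerSeries.constantCoeff_C, sub_self]

end FermatAgent.RT
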